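/-
Project BAD, layer MODEL, route (η) (owner helper253; ruling of the captain helper36, 08:05).

`EtaBase` = the part of helper98's contract `InstData` which is common to all routes (blocks L0, VAL,
HALF, SYM, DICH: everything except the data at the closed points), with the consequences
`isMPt_b`, `through_or_away`, `qep₁`, `qep₂`, `locQep`, `halfPtα`, `halfPtβ`, `isPt`, `ptBase`
(same proofs as `BAD/Model/Main/Fields.lean`, `Assembly.lean`, which do not use the point data), and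
`model_of_etaBase : EtaBase → (PtHyp at every closed point) → Model`.
-/
import Fermat.Agent.BAD.Model.Inst
import Fermat.Agent.BAD.Model.PreLoc
import Fermat.Agent.BAD.Model.Change
import Fermat.Agent.BAD.Model.CuspOfData
import Fermat.Agent.BAD.Model.Main.ThroughAway
import Fermat.Agent.BAD.Model.Main.Dense
import Fermat.Agent.BAD.Model.Main.NormUnitOf
import Fermat.Agent.BAD.Model.Main.Fields
import Fermat.Agent.S18.Chart.Overlap
import Fermat.Agent.S36.BP.Loc.Basic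

set_option autoImplicit false

namespace Fermat.Agent.BAD.Model

open Fermat.Agent.S18 Fermat.Agent.S36.BP Fermat.Agent.S36.BP.Build IntermediateField

variable {K₀ F₀ F : Type*} [Field K₀] [Field F₀] [Field F] [Algebra K₀ F₀] [Algebra K₀ F]

/-- The modular input common to all routes (the fields of `InstData` up to `dich`). -/
structure EtaBase (A₀ : ValuationSubring K₀) (q : ℕ) (ιa ιb : F₀ →ₐ[K₀] F) (x₀ j₀ : F₀)
    (Ow : ValuationSubring F₀) (V : Fin 3 → ValuationSubring F) (ϖm : F) (Eα Eβ : Subfield F)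
    (Nα Nβ : F →* F) : Prop where
  base : BaseHyp A₀ q
  -- (L0) the good level `N₀`
  transc₀ : Transcendental K₀ x₀
  finite : FiniteDimensional K₀⟮ιa x₀⟯ F
  finite_b : FiniteDimensional K₀⟮ιb x₀⟯ F
  unifw : IsUnif Ow (q : F₀)
  const₀ : ∀ a ∈ A₀, algebraMap K₀ F₀ a ∈ Ow
  x_unit₀ : Ow.valuation x₀ = 1
  chart₁ : IsChart Ow (q : F₀) (chart A₀.toSubring x₀)
  chart₂ : IsChart Ow (q : F₀) (chart A₀.toSubring x₀⁻¹)
  -- (VAL) the three vertical valuations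
  comap_a : ∀ c, (V c).comap (ιa : F₀ →+* F) = Ow
  comap_b : ∀ c, (V c).comap (ιb : F₀ →+* F) = Ow
  complete : ∀ W : ValuationSubring F, W.comap (ιa : F₀ →+* F) = Ow → ∃ c, W = V c
  complete_b : ∀ W : ValuationSubring F, W.comap (ιb : F₀ →+* F) = Ow → ∃ c, W = V c
  inj : Function.Injective V
  unif0 : IsUnif (V 0) (q : F)
  unif1 : IsUnif (V 1) ϖm
  unif2 : IsUnif (V 2) (q : F)
  ram1 : (V 1).valuation ϖm ^ (q - 1) = (V 1).valuation (q : F)
  dense0a : ∀ y ∈ V 0, ∃ y' : F₀, (V 0).valuation (ιa y' - y) < 1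
  dense1a : ∀ y ∈ V 1, ∃ y' : F₀, (V 1).valuation (ιa y' - y) < 1
  dense1b : ∀ y ∈ V 1, ∃ y' : F₀, (V 1).valuation (ιb y' - y) < 1
  dense2b : ∀ y ∈ V 2, ∃ y' : F₀, (V 2).valuation (ιb y' - y) < 1
  -- (HALF) the two degeneracy maps from level `N₀ q`
  range_a : ∀ f, ιa f ∈ Eα
  range_b : ∀ f, ιb f ∈ Eβ
  normα_const : ∀ a : K₀, Nα (algebraMap K₀ F a) = algebraMap K₀ F a ^ q
  normβ_const : ∀ a : K₀, Nβ (algebraMap K₀ F a) = algebraMap K₀ F a ^ q
  halfα : Half q ϖm Eα Nα (V 0) (V 1) (V 2)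
  halfβ : Half q ϖm Eβ Nβ (V 2) (V 1) (V 0)
  normα_int : ∀ z : F₀, ∀ b ∈ chart A₀.toSubring (ιa z), Nα b ∈ chart A₀.toSubring (ιa z)
  normβ_int : ∀ z : F₀, ∀ b ∈ chart A₀.toSubring (ιb z), Nβ b ∈ chart A₀.toSubring (ιb z)
  -- (SYM) the model built on `x(z)` and the model built on `x(q² z)` have the same points
  sym_ab : ∀ R : Subring F, IsPt A₀ R → (ιa x₀ ∈ R ∨ (ιa x₀)⁻¹ ∈ R) →
    (ιb x₀ ∈ R ∨ (ιb x₀)⁻¹ ∈ R)
  sym_ba : ∀ R : Subring F, IsPt A₀ R → (ιb x₀ ∈ R ∨ (ιb x₀)⁻¹ ∈ R) →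
    (ιa x₀ ∈ R ∨ (ιa x₀)⁻¹ ∈ R)
  -- (DICH) every closed point is cuspidal or non-cuspidal
  dich : ∀ R : Subring F, IsPt A₀ R → (ιa x₀ ∈ R ∨ (ιa x₀)⁻¹ ∈ R) →
    ιa j₀ ∈ R ∨ (ιa j₀)⁻¹ ∈ rad R

variable {A₀ : ValuationSubring K₀} {q : ℕ} {ιa ιb : F₀ →ₐ[K₀] F} {x₀ j₀ : F₀}
  {Ow : ValuationSubring F₀} {V : Fin 3 → ValuationSubring F} {ϖm : F} {Eα Eβ : Subfield F}
  {Nα Nβ : F →* F} {R : Subring F}

/-- helper98's contract contains `EtaBase`. -/
theorem InstData.etaBase (D : InstData A₀ q ιa ιb x₀ j₀ Ow V ϖm Eα Eβ Nα Nβ) :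
    EtaBase A₀ q ιa ιb x₀ j₀ Ow V ϖm Eα Eβ Nα Nβ where
  base := D.base
  transc₀ := D.transc₀
  finite := D.finite
  finite_b := D.finite_b
  unifw := D.unifw
  const₀ := D.const₀
  x_unit₀ := D.x_unit₀
  chart₁ := D.chart₁
  chart₂ := D.chart₂
  comap_a := D.comap_a
  comap_b := D.comap_b
  complete := D.complete
  complete_b := D.complete_b
  inj := D.inj
  unif0 := D.unif0
  unif1 := D.unif1
  unif2 := D.unif2
  ram1 := D.ram1
  dense0a := D.dense0a
  dense1a := D.dense1a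
  dense1b := D.dense1b
  dense2b := D.dense2b
  range_a := D.range_a
  range_b := D.range_b
  normα_const := D.normα_const
  normβ_const := D.normβ_const
  halfα := D.halfα
  halfβ := D.halfβ
  normα_int := D.normα_int
  normβ_int := D.normβ_int
  sym_ab := D.sym_ab
  sym_ba := D.sym_ba
  dich := D.dich

namespace EtaBase

variable (D : EtaBase A₀ q ιa ιb x₀ j₀ Ow V ϖm Eα Eβ Nα Nβ)
include D

theorem exists_unif (c : Fin 3) : ∃ ϖ : F, IsUnif (V c) ϖ := by
  fin_cases c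
  · exact ⟨_, D.unif0⟩
  · exact ⟨_, D.unif1⟩
  · exact ⟨_, D.unif2⟩

theorem transc : Transcendental K₀ (ιa x₀) := fields_transcendental_map ιa D.transc₀

theorem isMPt_b (hR : IsMPt A₀ q (ιa x₀) R) : IsMPt A₀ q (ιb x₀) R :=
  isMPt_change D.base (fields_transcendental_map ιa D.transc₀) D.finite
    (fields_transcendental_map ιb D.transc₀) D.finite_b D.sym_ab D.sym_ba hR

theorem through_or_away (hR : IsMPt A₀ q (ιa x₀) R) (c : Fin 3) :
    Through R (V c) ∨ Away R (V c) := by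
  fin_cases c
  · exact through_or_away_of ιa D.finite D.unifw D.chart₁ D.chart₂ D.comap_a D.complete D.inj
      D.exists_unif 0 D.dense0a hR
  · exact through_or_away_of ιa D.finite D.unifw D.chart₁ D.chart₂ D.comap_a D.complete D.inj
      D.exists_unif 1 D.dense1a hR
  · exact through_or_away_of ιb D.finite_b D.unifw D.chart₁ D.chart₂ D.comap_b D.complete_b D.inj
      D.exists_unif 2 D.dense2b (D.isMPt_b hR)

theorem qep₁ : ∀ y : F, (q : F) * y ∈ chart A₀.toSubring (ιa x₀) → (∀ c, y ∈ V c) →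
    y ∈ chart A₀.toSubring (ιa x₀) :=
  fields_qep_of ιa D.finite D.unifw D.chart₁ D.complete

theorem qep₂ : ∀ y : F, (q : F) * y ∈ chart A₀.toSubring (ιa x₀)⁻¹ → (∀ c, y ∈ V c) →
    y ∈ chart A₀.toSubring (ιa x₀)⁻¹ := by
  rw [← map_inv₀]
  exact fields_qep_of ιa D.finite D.unifw D.chart₂ D.complete

theorem locQep (hR : IsMPt A₀ q (ιa x₀) R) : LocQep q V R := by
  have hta := D.through_or_away hR
  rcases hR with ⟨𝔫, h𝔫, -, rfl⟩ | ⟨𝔫, h𝔫, -, rfl⟩
  · exact qep_loc_of (fun c => fields_chart_le ιa D.chart₁.le (D.comap_a c)) D.exists_unif D.qep₁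
      𝔫 hta
  · refine qep_loc_of (fun c => ?_) D.exists_unif D.qep₂ 𝔫 hta
    rw [← map_inv₀]
    exact fields_chart_le ιa D.chart₂.le (D.comap_a c)

theorem halfPtα (hR : IsMPt A₀ q (ιa x₀) R) (hT : ∀ c, Through R (V c)) :
    HalfPt Eα Nα (V 0) (V 1) R where
  dense_a := dense_of ιa D.unifw D.chart₁ D.chart₂ (V 0) (D.comap_a 0) D.dense0a Eα D.range_a hR
    (hT 0)
  dense_m := dense_of ιa D.unifw D.chart₁ D.chart₂ (V 1) (D.comap_a 1) D.dense1a Eα D.range_a hR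
    (hT 1)
  norm_unit := norm_unit_of ιa D.base.prime.pos D.halfα D.normα_int hR (hT 2)

theorem halfPtβ (hR : IsMPt A₀ q (ιa x₀) R) (hT : ∀ c, Through R (V c)) :
    HalfPt Eβ Nβ (V 2) (V 1) R where
  dense_a := dense_of ιb D.unifw D.chart₁ D.chart₂ (V 2) (D.comap_b 2) D.dense2b Eβ D.range_b
    (D.isMPt_b hR) (hT 2)
  dense_m := dense_of ιb D.unifw D.chart₁ D.chart₂ (V 1) (D.comap_b 1) D.dense1b Eβ D.range_b
    (D.isMPt_b hR) (hT 1)
  norm_unit := norm_unit_of ιb D.base.prime.pos D.halfβ D.normβ_int (D.isMPt_b hR) (hT 0)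

theorem isPt (hR : IsMPt A₀ q (ιa x₀) R) : IsPt A₀ R :=
  IsMPt.isPt D.base D.transc D.finite hR

omit D in
theorem mem_or_inv_mem {x : F} (hR : IsMPt A₀ q x R) : x ∈ R ∨ x⁻¹ ∈ R := by
  rcases hR with ⟨𝔫, h𝔫, -, rfl⟩ | ⟨𝔫, h𝔫, -, rfl⟩
  · exact Or.inl (le_locSub (self_mem_chart _))
  · exact Or.inr (le_locSub (self_mem_chart _))

theorem q_mem_rad (hR : IsMPt A₀ q (ιa x₀) R) : (q : F) ∈ rad R :=
  Change.natCast_mem_rad D.base (D.isPt hR)

/-- helper38's `PtBase` at every closed point. -/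
theorem ptBase (hR : IsMPt A₀ q (ιa x₀) R) : PtBase A₀ q V R :=
  ptBase_of (D.isPt hR) (D.through_or_away hR) (D.locQep hR) D.unif0.ne_zero (D.q_mem_rad hR)

/-- every closed point is cuspidal or non-cuspidal -/
theorem dich' (hR : IsMPt A₀ q (ιa x₀) R) : ιa j₀ ∈ R ∨ (ιa j₀)⁻¹ ∈ rad R :=
  D.dich R (D.isPt hR) (mem_or_inv_mem hR)

/-- **The abstract model** from `EtaBase` and `PtHyp` at every closed point. -/
theorem model (hpt : ∀ R : Subring F, IsMPt A₀ q (ιa x₀) R → PtHyp V Eα Eβ Nα Nβ R) :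
    Model A₀ q (ιa x₀) V ϖm Eα Eβ Nα Nβ where
  base := D.base
  transc := D.transc
  finite := D.finite
  const_mem c a ha := by
    have h : algebraMap K₀ F₀ a ∈ (V c).comap (ιa : F₀ →+* F) := by
      rw [D.comap_a c]
      exact D.const₀ a ha
    rw [ValuationSubring.mem_comap] at h
    simpa using h
  x_unit c := by
    obtain ⟨h0, h1, h2⟩ := val_eq_one_iff.1 D.x_unit₀
    rw [← D.comap_a c, ValuationSubring.mem_comap] at h1 h2
    refine val_eq_one_iff.2 ⟨(map_ne_zero ιa).2 h0, h1, ?_⟩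
    simpa using h2
  inj := D.inj
  unif0 := D.unif0
  unif1 := D.unif1
  unif2 := D.unif2
  ram1 := D.ram1
  qep₁ := D.qep₁
  qep₂ := D.qep₂
  constα a := by
    have h := D.range_a (algebraMap K₀ F₀ a)
    rwa [AlgHom.commutes] at h
  constβ a := by
    have h := D.range_b (algebraMap K₀ F₀ a)
    rwa [AlgHom.commutes] at h
  normα_const := D.normα_const
  normβ_const := D.normβ_const
  halfα := D.halfα
  halfβ := D.halfβ
  pts₁ 𝔫 h𝔫 hq := hpt _ (Or.inl ⟨𝔫, h𝔫, hq, rfl⟩)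
  pts₂ 𝔫 h𝔫 hq := hpt _ (Or.inr ⟨𝔫, h𝔫, hq, rfl⟩)

end EtaBase

end Fermat.Agent.BAD.Model
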