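/-
Project BAD, layer MODEL, route (η) (owner helper253; ruling of the captain helper36, 08:05).

`EtaBase.ptHyp_eta` : `PtHyp` at every closed point from helper38's `CuspData` (cuspidal points) and
helper149's `NonCuspData` (non-cuspidal points: indicator functions of the three components built on
the eta unit `x = G(z)/G(qz)`, `x y = q`).
`EtaBase.model_eta` : the abstract model.
-/
import Fermat.Agent.BAD.Model.Eta.Base
import Fermat.Agent.BAD.Model.NonCusp.Main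

set_option autoImplicit false

namespace Fermat.Agent.BAD.Model

open Fermat.Agent.S18 Fermat.Agent.S36.BP Fermat.Agent.S36.BP.Build IntermediateField

variable {K₀ F₀ F : Type*} [Field K₀] [Field F₀] [Field F] [Algebra K₀ F₀] [Algebra K₀ F]
  {A₀ : ValuationSubring K₀} {q : ℕ} {ιa ιb : F₀ →ₐ[K₀] F} {x₀ j₀ : F₀}
  {Ow : ValuationSubring F₀} {V : Fin 3 → ValuationSubring F} {ϖm : F} {Eα Eβ : Subfield F}
  {Nα Nβ : F →* F} {R : Subring F}

namespace EtaBase

variable (D : EtaBase A₀ q ιa ιb x₀ j₀ Ow V ϖm Eα Eβ Nα Nβ)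
include D

/-- **`PtHyp` at every closed point, route (η).** -/
theorem ptHyp_eta {c : ℕ → ℕ → K₀} {s' s'' : F} (C : CuspData A₀ q V c (ιa j₀)⁻¹ s' s'')
    {Y : Fin 3 → F} {z κ : F} {e : Fin 4 → F} (N : NonCuspData q V Y z κ e)
    (hmem : ∀ R : Subring F, PtBase A₀ q V R → ιa j₀ ∈ R →
      (∀ c, Y c ∈ R) ∧ z ∈ R ∧ (∀ i, RUnit R (e i)) ∧
        (RUnit R (Y 0) → RUnit R (Y 2) → RUnit R κ))
    (hR : IsMPt A₀ q (ιa x₀) R) : PtHyp V Eα Eβ Nα Nβ R := by
  have hP := D.ptBase hR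
  have hta := D.through_or_away hR
  rcases D.dich' hR with hj | hj
  · obtain ⟨hY, hz, he, hκ⟩ := hmem R hP hj
    refine N.ptHyp' D.base D.unif0 D.unif1 D.unif2 D.ram1 hP hY hz he hκ (fun i hL => ?_)
      Eα Eβ Nα Nβ fun h => ⟨D.halfPtα hR h, D.halfPtβ hR h⟩
    rcases hta i with h | h
    · exact h
    · exfalso
      obtain ⟨ε, hε, hlt⟩ := h
      have h1 : (V i).valuation ε⁻¹ ≤ 1 := (V i).valuation_le_one_iff _ |>.2 (hL.1 _ hε.2.2)
      rw [map_inv₀] at h1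
      have h0 : (V i).valuation ε ≠ 0 := (map_ne_zero _).2 hε.1
      have h2 : 1 ≤ (V i).valuation ε := (inv_le_one₀ (zero_lt_iff.2 h0)).1 h1
      exact absurd hlt (not_lt.2 h2)
  · exact ptHyp_of_cuspData D.base (D.isPt hR) hta (D.locQep hR) (D.q_mem_rad hR) D.unif0 D.unif1
      D.unif2 D.ram1 C hj

/-- **The abstract model, route (η).** -/
theorem model_eta {c : ℕ → ℕ → K₀} {s' s'' : F} (C : CuspData A₀ q V c (ιa j₀)⁻¹ s' s'')
    {Y : Fin 3 → F} {z κ : F} {e : Fin 4 → F} (N : NonCuspData q V Y z κ e)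
    (hmem : ∀ R : Subring F, PtBase A₀ q V R → ιa j₀ ∈ R →
      (∀ c, Y c ∈ R) ∧ z ∈ R ∧ (∀ i, RUnit R (e i)) ∧
        (RUnit R (Y 0) → RUnit R (Y 2) → RUnit R κ)) :
    Model A₀ q (ιa x₀) V ϖm Eα Eβ Nα Nβ :=
  D.model fun _ hR => D.ptHyp_eta C N hmem hR

end EtaBase

end Fermat.Agent.BAD.Model
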